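/-
TW programme, WP5 (local conditions at `q ≠ p`), brick (5.0)+(5.1) -- helper61.

Abstract setting: a group `G` with a basis `𝓤` of "open" subgroups (in the sense of
`PT/PRO/LevelCoh28`), a normal subgroup `I` ("inertia") and an element `φ` ("Frobenius") such that
`⟨φ⟩ · I` is dense: every `g` is `φ ^ n * i * u` modulo every level `U ∈ 𝓤`.

For a finite-dimensional discrete representation `A` of `G` over a field `k`:

* `unramCocycles 𝓤 I A` : the level 1-cocycles whose restriction to `I` is a coboundary;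
* `unramH1 𝓤 I A`       : their classes in `H¹(G, A)` (Mathlib's `groupCohomology.H1`);
* `finrank_unramH1_le`   : `dim unramH1 ≤ dim A^G`
  (the unramified classes are `H¹(G/I, A^I)` and `G/I` is procyclic).

Everything is stated for abstract groups, so that it applies to the Prelude's local groups
`primeLocalGaloisGroup q → G_ℚ` with the level structure induced from `G_ℚ`.
-/
import Mathlib
import Fermat.Agent.PT.PRO.LevelCoh28

set_option autoImplicit false

universe u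

open CategoryTheory groupCohomology Module
open Fermat.Agent.PT.PRO.LevelCoh28

namespace Fermat.Agent.TW.LocQ.UnramBound61

noncomputable section

variable {k G : Type u} [Field k] [Group G]

/-- `I` is normal and `⟨φ⟩ · I` is dense for the level topology defined by `𝓤`. -/
structure IsFrobDense (𝓤 : Set (Subgroup G)) (I : Subgroup G) (φ : G) : Prop where
  normal : I.Normal
  dense : ∀ U ∈ 𝓤, ∀ g : G, ∃ n : ℕ, ∃ i ∈ I, ∃ u ∈ U, g = φ ^ n * i * u

section Cocycle

variable {A : Rep.{u} k G}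

theorem cocycle_mul (c : cocycles₁ A) (g h : G) : c (g * h) = A.ρ g (c h) + c g :=
  (mem_cocycles₁_iff c).1 c.2 g h

/-- A cocycle vanishing at `g` vanishes at all powers of `g`. -/
theorem cocycle_pow_eq_zero (c : cocycles₁ A) {g : G} (hg : c g = 0) (n : ℕ) : c (g ^ n) = 0 := by
  induction n with
  | zero => simp
  | succ n ih => rw [pow_succ, cocycle_mul, hg, map_zero, ih, add_zero]

/-- A cocycle which is right-invariant under `U` vanishes on `U`. -/
theorem cocycle_eq_zero_of_invOn (c : cocycles₁ A) {U : Subgroup G} (hU : InvOn₁ U (c : G → A))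
    {u : G} (hu : u ∈ U) : c u = 0 := by
  have := hU 1 u hu
  rwa [one_mul, cocycles₁_map_one] at this

end Cocycle

section Defs

variable (𝓤 : Set (Subgroup G)) (I : Subgroup G) (A : Rep.{u} k G)

/-- The vectors fixed by `I`. -/
def fixedBy : Submodule k A where
  carrier := {a | ∀ i ∈ I, A.ρ i a = a}
  add_mem' := fun ha hb i hi => by rw [map_add, ha i hi, hb i hi]
  zero_mem' := fun i _ => map_zero _
  smul_mem' := fun r _ ha i hi => by rw [map_smul, ha i hi]

theorem mem_fixedBy {a : A} : a ∈ fixedBy I A ↔ ∀ i ∈ I, A.ρ i a = a := Iff.rfl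

theorem invariants_le_fixedBy : A.ρ.invariants ≤ fixedBy I A := fun _ ha i _ => ha i

/-- Level 1-cocycles whose restriction to `I` is a coboundary. -/
def unramCocycles (h𝓤 : IsLevelBasis 𝓤) : Submodule k (cocycles₁ A) where
  carrier := {c | IsLevel₁ 𝓤 (c : G → A) ∧ ∃ m : A, ∀ i ∈ I, c i = A.ρ i m - m}
  add_mem' := by
    rintro c c' ⟨hc, m, hm⟩ ⟨hc', m', hm'⟩
    refine ⟨hc.add h𝓤 hc', m + m', fun i hi => ?_⟩
    show c i + c' i = _
    rw [hm i hi, hm' i hi, map_add]; abel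
  zero_mem' := ⟨isLevel₁_const h𝓤 (0 : A), 0, fun i _ => by simp; rfl⟩
  smul_mem' := by
    rintro r c ⟨hc, m, hm⟩
    refine ⟨hc.comp (r • ·), r • m, fun i hi => ?_⟩
    show r • c i = _
    rw [hm i hi, map_smul, smul_sub]

/-- Level 1-cocycles vanishing on `I`. -/
def unramCocycles₀ (h𝓤 : IsLevelBasis 𝓤) : Submodule k (cocycles₁ A) where
  carrier := {c | IsLevel₁ 𝓤 (c : G → A) ∧ ∀ i ∈ I, c i = 0}
  add_mem' := by
    rintro c c' ⟨hc, hm⟩ ⟨hc', hm'⟩
    refine ⟨hc.add h𝓤 hc', fun i hi => ?_⟩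
    show c i + c' i = _
    rw [hm i hi, hm' i hi, add_zero]
  zero_mem' := ⟨isLevel₁_const h𝓤 (0 : A), fun i _ => rfl⟩
  smul_mem' := by
    rintro r c ⟨hc, hm⟩
    refine ⟨hc.comp (r • ·), fun i hi => ?_⟩
    show r • c i = _
    rw [hm i hi, smul_zero]

/-- The unramified classes in `H¹(G, A)`. -/
def unramH1 (h𝓤 : IsLevelBasis 𝓤) : Submodule k (H1 A) :=
  (unramCocycles 𝓤 I A h𝓤).map (H1π A).hom

variable {𝓤 I A}

theorem mem_unramH1_iff (h𝓤 : IsLevelBasis 𝓤) (x : H1 A) :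
    x ∈ unramH1 𝓤 I A h𝓤 ↔ ∃ c : cocycles₁ A, IsLevel₁ 𝓤 (c : G → A) ∧
      (∃ m : A, ∀ i ∈ I, c i = A.ρ i m - m) ∧ (H1π A).hom c = x := by
  constructor
  · rintro ⟨c, ⟨hc, hm⟩, rfl⟩
    exact ⟨c, hc, hm, rfl⟩
  · rintro ⟨c, hc, hm, rfl⟩
    exact ⟨c, ⟨hc, hm⟩, rfl⟩

theorem H1π_mem_unramH1 (h𝓤 : IsLevelBasis 𝓤) {c : cocycles₁ A} (hc : IsLevel₁ 𝓤 (c : G → A))
    (hm : ∃ m : A, ∀ i ∈ I, c i = A.ρ i m - m) : (H1π A).hom c ∈ unramH1 𝓤 I A h𝓤 :=
  (mem_unramH1_iff h𝓤 _).2 ⟨c, hc, hm, rfl⟩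

end Defs

section Main

variable {𝓤 : Set (Subgroup G)} {I : Subgroup G} {φ : G} {A : Rep.{u} k G}

/-- Values of a cocycle vanishing on the normal subgroup `I` are fixed by `I`. -/
theorem apply_mem_fixedBy (hI : I.Normal) (c : cocycles₁ A) (hc : ∀ i ∈ I, c i = 0) (g : G) :
    c g ∈ fixedBy I A := by
  intro i hi
  have h1 : c (i * g) = A.ρ i (c g) := by rw [cocycle_mul, hc i hi, add_zero]
  have h2 : c (i * g) = c g := by
    have : i * g = g * (g⁻¹ * i * g) := by group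
    rw [this, cocycle_mul]
    have hmem : g⁻¹ * i * g ∈ I := by
      have := hI.conj_mem i hi g⁻¹
      simpa using this
    rw [hc _ hmem, map_zero, zero_add]
  rw [← h1, h2]

/-- A level cocycle vanishing on `I` and at `φ` is zero. -/
theorem eq_zero_of_apply_frob (hd : IsFrobDense 𝓤 I φ) (c : cocycles₁ A)
    (hlev : IsLevel₁ 𝓤 (c : G → A)) (hc : ∀ i ∈ I, c i = 0) (hφ : c φ = 0) : c = 0 := by
  obtain ⟨U, hU, hinv⟩ := hlev
  ext g
  obtain ⟨n, i, hi, u, hu, rfl⟩ := hd.dense U hU g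
  rw [hinv _ u hu, cocycle_mul, hc i hi, map_zero, zero_add, cocycle_pow_eq_zero c hφ]
  rfl

variable (h𝓤 : IsLevelBasis 𝓤)

/-- Evaluation at Frobenius on the cocycles vanishing on `I`. -/
def evFrob (hI : I.Normal) (φ : G) : unramCocycles₀ 𝓤 I A h𝓤 →ₗ[k] fixedBy I A where
  toFun c := ⟨(c : cocycles₁ A) φ, apply_mem_fixedBy hI (c : cocycles₁ A) c.2.2 φ⟩
  map_add' _ _ := rfl
  map_smul' _ _ := rfl

theorem evFrob_injective (hd : IsFrobDense 𝓤 I φ) :
    Function.Injective (evFrob (A := A) h𝓤 hd.normal φ) := by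
  refine (injective_iff_map_eq_zero _).2 fun c hc => ?_
  have h0 : (c : cocycles₁ A) φ = 0 := congrArg Subtype.val hc
  exact Subtype.ext (eq_zero_of_apply_frob hd (c : cocycles₁ A) c.2.1 c.2.2 h0)

/-- The coboundary map on `I`-fixed vectors, with values in the cocycles vanishing on `I`. -/
def dFixed (hA : IsDiscrete 𝓤 A) : fixedBy I A →ₗ[k] unramCocycles₀ 𝓤 I A h𝓤 where
  toFun a := ⟨⟨(d₀₁ A).hom a, d₀₁_apply_mem_cocycles₁ (a : A)⟩, isLevel₁_d₀₁ hA (a : A),
    fun i hi => by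
      show (d₀₁ A).hom (a : A) i = 0
      rw [d₀₁_hom_apply, a.2 i hi, sub_self]⟩
  map_add' a b := by
    apply Subtype.ext; apply Subtype.ext
    show (d₀₁ A).hom ((a + b : fixedBy I A) : A) = (d₀₁ A).hom a + (d₀₁ A).hom b
    rw [Submodule.coe_add, map_add]
  map_smul' r a := by
    apply Subtype.ext; apply Subtype.ext
    show (d₀₁ A).hom ((r • a : fixedBy I A) : A) = r • (d₀₁ A).hom a
    rw [Submodule.coe_smul, map_smul]

theorem dFixed_apply (hA : IsDiscrete 𝓤 A) (a : fixedBy I A) (g : G) :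
    ((dFixed (I := I) h𝓤 hA a : unramCocycles₀ 𝓤 I A h𝓤) : cocycles₁ A) g = A.ρ g a - a := by
  show (d₀₁ A).hom (a : A) g = _
  rw [d₀₁_hom_apply]

theorem ker_dFixed (hA : IsDiscrete 𝓤 A) :
    LinearMap.ker (dFixed (I := I) h𝓤 hA) = (A.ρ.invariants).comap (fixedBy I A).subtype := by
  ext a
  rw [LinearMap.mem_ker, Submodule.mem_comap, Submodule.subtype_apply]
  constructor
  · intro h g
    have := dFixed_apply (I := I) h𝓤 hA a g
    rw [h] at this
    have h0 : ((0 : unramCocycles₀ 𝓤 I A h𝓤) : cocycles₁ A) g = 0 := rfl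
    rw [h0] at this
    exact (sub_eq_zero.mp this.symm)
  · intro h
    apply Subtype.ext; ext g
    rw [dFixed_apply]
    show A.ρ g a - a = 0
    rw [h g, sub_self]

/-- The class map on the cocycles vanishing on `I`. -/
def classMap : unramCocycles₀ 𝓤 I A h𝓤 →ₗ[k] H1 A :=
  (H1π A).hom ∘ₗ (unramCocycles₀ 𝓤 I A h𝓤).subtype

theorem range_classMap (hA : IsDiscrete 𝓤 A) :
    LinearMap.range (classMap (I := I) (A := A) h𝓤) = unramH1 𝓤 I A h𝓤 := by
  apply le_antisymm
  · rintro _ ⟨c, rfl⟩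
    refine H1π_mem_unramH1 h𝓤 c.2.1 ⟨0, fun i hi => ?_⟩
    show (c : cocycles₁ A) i = _
    rw [c.2.2 i hi, map_zero, sub_zero]
  · rintro _ ⟨c, ⟨hc, m, hm⟩, rfl⟩
    -- subtract the coboundary of `m`
    let b : cocycles₁ A := ⟨(d₀₁ A).hom m, d₀₁_apply_mem_cocycles₁ m⟩
    have hb : IsLevel₁ 𝓤 ((b : cocycles₁ A) : G → A) := isLevel₁_d₀₁ hA m
    have hmem : c - b ∈ unramCocycles₀ 𝓤 I A h𝓤 := by
      refine ⟨hc.sub h𝓤 hb, fun i hi => ?_⟩
      show c i - (d₀₁ A).hom m i = 0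
      rw [d₀₁_hom_apply, hm i hi, sub_self]
    refine ⟨⟨c - b, hmem⟩, ?_⟩
    show (H1π A).hom (c - b) = (H1π A).hom c
    rw [map_sub, sub_eq_self]
    exact (H1π_eq_zero_iff b).2 ⟨m, rfl⟩

theorem ker_classMap (hA : IsDiscrete 𝓤 A) :
    LinearMap.ker (classMap (I := I) (A := A) h𝓤) = LinearMap.range (dFixed (I := I) h𝓤 hA) := by
  ext c
  rw [LinearMap.mem_ker]
  constructor
  · intro h
    have h' : (H1π A) (c : cocycles₁ A) = 0 := h
    obtain ⟨m, hm⟩ := (H1π_eq_zero_iff (c : cocycles₁ A)).1 h'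
    have hmI : m ∈ fixedBy I A := by
      intro i hi
      have := congrFun hm i
      rw [d₀₁_hom_apply] at this
      have hci : (c : cocycles₁ A) i = 0 := c.2.2 i hi
      rw [show ((c : cocycles₁ A) : G → A) i = (c : cocycles₁ A) i from rfl, hci] at this
      exact sub_eq_zero.mp this
    refine ⟨⟨m, hmI⟩, ?_⟩
    apply Subtype.ext; apply Subtype.ext
    exact hm
  · rintro ⟨a, rfl⟩
    show (H1π A) ((dFixed (I := I) h𝓤 hA a : unramCocycles₀ 𝓤 I A h𝓤) : cocycles₁ A) = 0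
    exact (H1π_eq_zero_iff _).2 ⟨(a : A), rfl⟩

/-- **Unramified classes**: `dim H¹_ur(G, A) ≤ dim A^G`. -/
theorem finrank_unramH1_le [FiniteDimensional k A] (hd : IsFrobDense 𝓤 I φ)
    (hA : IsDiscrete 𝓤 A) :
    finrank k (unramH1 𝓤 I A h𝓤) ≤ finrank k A.ρ.invariants := by
  have hinj := evFrob_injective (A := A) h𝓤 hd
  have : FiniteDimensional k (unramCocycles₀ 𝓤 I A h𝓤) :=
    FiniteDimensional.of_injective _ hinj
  have h1 : finrank k (unramCocycles₀ 𝓤 I A h𝓤) ≤ finrank k (fixedBy I A) :=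
    LinearMap.finrank_le_finrank_of_injective hinj
  have h2 := LinearMap.finrank_range_add_finrank_ker (K := k) (V := unramCocycles₀ 𝓤 I A h𝓤)
    (V₂ := H1 A) (classMap (I := I) (A := A) h𝓤)
  have h3 := LinearMap.finrank_range_add_finrank_ker (K := k) (V := fixedBy I A)
    (V₂ := unramCocycles₀ 𝓤 I A h𝓤) (dFixed (I := I) h𝓤 hA)
  rw [range_classMap h𝓤 hA, ker_classMap h𝓤 hA] at h2
  rw [ker_dFixed h𝓤 hA] at h3
  have h4 : finrank k ((A.ρ.invariants).comap (fixedBy I A).subtype) =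
      finrank k A.ρ.invariants :=
    (Submodule.comapSubtypeEquivOfLe (invariants_le_fixedBy I A)).finrank_eq
  omega

theorem finiteDimensional_unramH1 [FiniteDimensional k A] (hd : IsFrobDense 𝓤 I φ)
    (hA : IsDiscrete 𝓤 A) : FiniteDimensional k (unramH1 𝓤 I A h𝓤) := by
  have hinj := evFrob_injective (A := A) h𝓤 hd
  have : FiniteDimensional k (unramCocycles₀ 𝓤 I A h𝓤) :=
    FiniteDimensional.of_injective _ hinj
  rw [← range_classMap h𝓤 hA]
  infer_instance

end Main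

end

end Fermat.Agent.TW.LocQ.UnramBound61
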