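/-
TW programme, WP5 (local conditions at `q ≠ p`) -- helper61.

The abstract TAME STRUCTURE of a local Galois group at `q`, as seen from a coefficient field of
characteristic `≠ q`.  `G` is a group with a basis `𝓤` of open subgroups, `I` the inertia subgroup,
`φ` a Frobenius element.  At every normal level `U ∈ 𝓤` there are a subgroup `W ⊇ U` (the preimage of
wild inertia at that level: `W / U` is a `q`-group contained in the image of `I`) and `τ ∈ I` whose
powers fill `I` modulo `W` (tame inertia is cyclic), with `φ τ φ⁻¹ ≡ τ ^ q` modulo `W`.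

These are exactly the facts used in the cohomological counts of WP5; the arithmetic input (that the
Prelude's `primeLocalGaloisGroup q` has this structure) is proved separately.
-/
import Mathlib
import Fermat.Agent.TW.LocQ.UnramBound61

set_option autoImplicit false

universe u

namespace Fermat.Agent.TW.LocQ.TameDef61

open Fermat.Agent.TW.LocQ.UnramBound61

variable {G : Type u} [Group G]

/-- Tame inertia at the level `U`: `W / U` is a `q`-group inside the image of `I`, and `I` is
generated by `τ` modulo `W`. -/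
structure IsTameAt (U I : Subgroup G) (q : ℕ) (W : Subgroup G) (τ : G) : Prop where
  le : U ≤ W
  mem_mul : ∀ w ∈ W, ∃ i ∈ I, ∃ u ∈ U, w = i * u
  pow_mem : ∀ w ∈ W, ∃ m : ℕ, w ^ (q ^ m) ∈ U
  tau_mem : τ ∈ I
  gen : ∀ i ∈ I, ∃ n : ℕ, ∃ w ∈ W, i = τ ^ n * w

/-- Tame inertia is (pro)cyclic modulo wild inertia, level by level. -/
def IsTameCyclic (𝓤 : Set (Subgroup G)) (I : Subgroup G) (q : ℕ) : Prop :=
  ∀ U ∈ 𝓤, U.Normal → ∃ (W : Subgroup G) (τ : G), IsTameAt U I q W τ

/-- The full tame structure: Frobenius density, cyclic tame inertia, and the relation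
`φ τ φ⁻¹ ≡ τ ^ q`. -/
structure IsTameFrob (𝓤 : Set (Subgroup G)) (I : Subgroup G) (φ : G) (q : ℕ) : Prop
    extends IsFrobDense 𝓤 I φ where
  tame : ∀ U ∈ 𝓤, U.Normal → ∃ (W : Subgroup G) (τ : G), IsTameAt U I q W τ ∧
    ∃ w ∈ W, φ * τ * φ⁻¹ = τ ^ q * w

theorem IsTameFrob.isTameCyclic {𝓤 : Set (Subgroup G)} {I : Subgroup G} {φ : G} {q : ℕ}
    (h : IsTameFrob 𝓤 I φ q) : IsTameCyclic 𝓤 I q := fun U hU hn => by
  obtain ⟨W, τ, ht, -⟩ := h.tame U hU hn
  exact ⟨W, τ, ht⟩

end Fermat.Agent.TW.LocQ.TameDef61
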