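/-
TW programme, WP5 (5a): primes `q ≠ p` with unipotent inertia -- helper61.

Setting: `G` a group with a level basis `𝓤`, inertia `I` with cyclic tame quotient
(`TameDef61.IsTameCyclic`), `k` a field with `2 ≠ 0` and `q ≠ 0`, `r : G →* M₂(k)` a residual
representation (in matrix form) and `A` a model of `ad⁰ r` (`IsAdZeroModel`: a `k`-linear equivariant
bijection `j` from `A` onto the trace-zero matrices).  A cocycle `c` gives the lift
`(1 + ε j(c g)) r g` of `r` to the dual numbers.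

`exists_coboundary_on_inertia`: if `r` is ramified (`r i ≠ 1` for some `i ∈ I`) and the lift has
unipotent inertia (`tr (r i) = 2`, `det (r i) = 1`, `tr (j (c i) * r i) = 0` on `I`), then the
restriction of `c` to `I` is a coboundary.

`H1π_mem_unramH1_of_unipotent`: hence the class of `c` is unramified, and
`UnramBound61.finrank_unramH1_le` bounds the space of such classes by `dim H⁰(G, A)`.
-/
import Mathlib
import Fermat.Agent.TW.LocQ.TameDef61
import Fermat.Agent.TW.LocQ.MatTwo61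

set_option autoImplicit false

universe u

open CategoryTheory groupCohomology Module Matrix
open Fermat.Agent.PT.PRO.LevelCoh28
open Fermat.Agent.TW.LocQ.UnramBound61 Fermat.Agent.TW.LocQ.TameDef61
  Fermat.Agent.TW.LocQ.MatTwo61

namespace Fermat.Agent.TW.LocQ.Unipotent61

variable {k G : Type u} [Field k] [Group G]

local notation "M₂" => Matrix (Fin 2) (Fin 2) k

/-- `A` is a model of the trace-zero adjoint representation `ad⁰ r` of `r : G →* M₂(k)`. -/
structure IsAdZeroModel (A : Rep.{u} k G) (r : G →* M₂) (j : A →ₗ[k] M₂) : Prop where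
  inj : Function.Injective j
  trace_zero : ∀ a, trace (j a) = 0
  surj : ∀ X : M₂, trace X = 0 → ∃ a, j a = X
  equivariant : ∀ g a, j (A.ρ g a) = r g * j a * r g⁻¹

section Cocycle

variable {A : Rep.{u} k G}

/-- If `g` fixes `c g` then `c (g ^ n) = n • c g`. -/
theorem cocycle_pow_of_fixed (c : cocycles₁ A) {g : G} (hg : A.ρ g (c g) = c g) (n : ℕ) :
    c (g ^ n) = (n : k) • c g := by
  induction n with
  | zero => simp
  | succ n ih =>
    rw [pow_succ', cocycle_mul, ih, map_smul, hg, Nat.cast_succ, add_smul, one_smul]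

/-- If `c g = g m - m` then `c (g ^ n) = g ^ n m - m`. -/
theorem cocycle_pow_of_coboundary (c : cocycles₁ A) {g : G} {m : A} (hg : c g = A.ρ g m - m)
    (n : ℕ) : c (g ^ n) = A.ρ (g ^ n) m - m := by
  induction n with
  | zero => simp
  | succ n ih =>
    rw [pow_succ, cocycle_mul, ih, hg, map_sub, map_mul, Module.End.mul_apply]
    abel

end Cocycle

variable {A : Rep.{u} k G} {r : G →* Matrix (Fin 2) (Fin 2) k}
  {j : A →ₗ[k] Matrix (Fin 2) (Fin 2) k}

theorem rho_eq_self_of_model (hm : IsAdZeroModel A r j) {g : G} (hg : r g = 1) (a : A) :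
    A.ρ g a = a := by
  apply hm.inj
  have hinv : r g⁻¹ = 1 := by
    have : r g⁻¹ * r g = 1 := by rw [← map_mul, inv_mul_cancel, map_one]
    rwa [hg, mul_one] at this
  rw [hm.equivariant, hg, hinv, one_mul, mul_one]

/-- **Unipotent inertia**: the restriction to inertia of a cocycle whose lift has unipotent
inertia is a coboundary, if the residual representation is ramified. -/
theorem exists_coboundary_on_inertia (hm : IsAdZeroModel A r j) (h2 : (2 : k) ≠ 0) {q : ℕ}
    (hq : (q : k) ≠ 0) {U I W : Subgroup G} {τ : G} (ht : IsTameAt U I q W τ)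
    (hrU : ∀ u ∈ U, r u = 1) (c : cocycles₁ A) (hcU : InvOn₁ U (c : G → A))
    (hunip : ∀ i ∈ I, trace (r i) = 2 ∧ det (r i) = 1)
    (hc : ∀ i ∈ I, trace (j (c i) * r i) = 0) (hram : ∃ i ∈ I, r i ≠ 1) :
    ∃ m : A, ∀ i ∈ I, c i = A.ρ i m - m := by
  have hqm : ∀ m : ℕ, ((q ^ m : ℕ) : k) ≠ 0 := fun m => by
    push_cast; exact pow_ne_zero _ hq
  -- Step A: `r` is trivial on `W`
  have hrW : ∀ w ∈ W, r w = 1 := by
    intro w hw
    obtain ⟨m, hm'⟩ := ht.pow_mem w hw
    obtain ⟨i, hi, u, hu, rfl⟩ := ht.mem_mul w hw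
    have hri : r (i * u) = r i := by rw [map_mul, hrU u hu, mul_one]
    have hN := sub_one_mul_self (hunip i hi).1 (hunip i hi).2
    have hpow : r ((i * u) ^ (q ^ m)) = 1 := hrU _ hm'
    rw [map_pow, hri] at hpow
    have hsplit : r i = 1 + (r i - 1) := by abel
    rw [hsplit, one_add_pow hN] at hpow
    have h0 : ((q ^ m : ℕ) : k) • (r i - 1) = 0 := by
      have := congrArg (fun M : M₂ => M - 1) hpow
      simpa using this
    have := (smul_eq_zero.mp h0).resolve_left (hqm m)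
    rw [hri]
    exact sub_eq_zero.mp this
  -- Step C: `c` vanishes on `W`
  have hcW : ∀ w ∈ W, c w = 0 := by
    intro w hw
    obtain ⟨m, hm'⟩ := ht.pow_mem w hw
    have h1 : c (w ^ (q ^ m)) = ((q ^ m : ℕ) : k) • c w :=
      cocycle_pow_of_fixed c (rho_eq_self_of_model hm (hrW w hw) _) _
    rw [cocycle_eq_zero_of_invOn c hcU hm'] at h1
    exact (smul_eq_zero.mp h1.symm).resolve_left (hqm m)
  -- Step D: the nilpotent `N = r τ - 1`
  have hτ := ht.tau_mem
  have hNN : (r τ - 1) * (r τ - 1) = 0 := sub_one_mul_self (hunip τ hτ).1 (hunip τ hτ).2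
  have hNtr : trace (r τ - 1) = 0 := by
    rw [trace_sub, (hunip τ hτ).1, trace_one]
    simp
  have hN0 : r τ - 1 ≠ 0 := by
    intro h0
    have hT : r τ = 1 := sub_eq_zero.mp h0
    obtain ⟨i, hi, hne⟩ := hram
    obtain ⟨n, w, hw, rfl⟩ := ht.gen i hi
    apply hne
    rw [map_mul, map_pow, hT, one_pow, one_mul, hrW w hw]
  -- Step E: solve `c τ = τ m - m`
  have hb0 : trace (j (c τ)) = 0 := hm.trace_zero _
  have hbT : trace (j (c τ) * r τ) = 0 := hc τ hτ
  have hbN : trace (j (c τ) * (r τ - 1)) = 0 := by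
    rw [mul_sub, mul_one, trace_sub, hbT, hb0, sub_zero]
  have hTN : r τ * (r τ - 1) = r τ - 1 := by
    have h1 : r τ * (r τ - 1) = (r τ - 1) * (r τ - 1) + (r τ - 1) := by noncomm_ring
    rw [h1, hNN, zero_add]
  have hY : trace (j (c τ) * r τ * (r τ - 1)) = 0 := by rw [mul_assoc, hTN, hbN]
  obtain ⟨X, hX⟩ := exists_comm_eq h2 hN0 hNtr hbT hY
  have hTT' : r τ * r τ⁻¹ = 1 := by rw [← map_mul, mul_inv_cancel, map_one]
  have hX' : j (c τ) * r τ = X * r τ - r τ * X := by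
    rw [hX, mul_sub, sub_mul, mul_one, one_mul]; abel
  have hb : j (c τ) = X - r τ * X * r τ⁻¹ := by
    calc j (c τ) = j (c τ) * r τ * r τ⁻¹ := by rw [mul_assoc, hTT', mul_one]
      _ = (X * r τ - r τ * X) * r τ⁻¹ := by rw [hX']
      _ = X - r τ * X * r τ⁻¹ := by rw [sub_mul, mul_assoc X, hTT', mul_one]
  have htr1 : trace (1 : M₂) = 2 := by simp
  have hX0tr : trace (X - (trace X / 2) • (1 : M₂)) = 0 := by
    rw [trace_sub, trace_smul, htr1, smul_eq_mul, div_mul_cancel₀ _ h2, sub_self]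
  have hb' : j (c τ) = (X - (trace X / 2) • (1 : M₂)) -
      r τ * (X - (trace X / 2) • (1 : M₂)) * r τ⁻¹ := by
    rw [hb, mul_sub, sub_mul, mul_smul_comm, mul_one, smul_mul_assoc, hTT']; abel
  obtain ⟨m, hm'⟩ := hm.surj (-(X - (trace X / 2) • (1 : M₂)))
    (by rw [trace_neg, hX0tr, neg_zero])
  have hcτ : c τ = A.ρ τ m - m := by
    apply hm.inj
    rw [map_sub, hm.equivariant, hm', hb', mul_neg, neg_mul]; abel
  -- Step F: all of `I`
  refine ⟨m, fun i hi => ?_⟩
  obtain ⟨n, w, hw, rfl⟩ := ht.gen i hi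
  rw [cocycle_mul, hcW w hw, map_zero, zero_add, cocycle_pow_of_coboundary c hcτ, map_mul,
    Module.End.mul_apply, rho_eq_self_of_model hm (hrW w hw)]

/-- The class of a level cocycle with unipotent inertia is unramified. -/
theorem H1π_mem_unramH1_of_unipotent {𝓤 : Set (Subgroup G)} (h𝓤 : IsLevelBasis 𝓤)
    {I : Subgroup G} {q : ℕ} (htame : IsTameCyclic 𝓤 I q) (hm : IsAdZeroModel A r j)
    (h2 : (2 : k) ≠ 0) (hq : (q : k) ≠ 0) (hr : ∃ U ∈ 𝓤, ∀ u ∈ U, r u = 1)
    (c : cocycles₁ A) (hlev : IsLevel₁ 𝓤 (c : G → A))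
    (hunip : ∀ i ∈ I, trace (r i) = 2 ∧ det (r i) = 1)
    (hc : ∀ i ∈ I, trace (j (c i) * r i) = 0) (hram : ∃ i ∈ I, r i ≠ 1) :
    (H1π A).hom c ∈ unramH1 𝓤 I A h𝓤 := by
  obtain ⟨U₁, hU₁, hr₁⟩ := hr
  obtain ⟨U₂, hU₂, hc₂⟩ := hlev
  obtain ⟨U₃, hU₃, hle⟩ := h𝓤.directed U₁ hU₁ U₂ hU₂
  obtain ⟨U, hU, hUle, hUn⟩ := h𝓤.normalCore U₃ hU₃
  obtain ⟨W, τ, ht⟩ := htame U hU hUn
  have hU1 : U ≤ U₁ := hUle.trans (hle.trans inf_le_left)
  have hU2 : U ≤ U₂ := hUle.trans (hle.trans inf_le_right)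
  exact H1π_mem_unramH1 h𝓤 ⟨U₂, hU₂, hc₂⟩
    (exists_coboundary_on_inertia hm h2 hq ht (fun u hu => hr₁ u (hU1 hu)) c (hc₂.mono hU2)
      hunip hc hram)

end Fermat.Agent.TW.LocQ.Unipotent61
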