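/-
TW programme, WP5 (5b): the tame count of ALL level classes -- helper61.

Abstract setting of `TameDef61`: a group `G` with level basis `𝓤`, inertia `I`, Frobenius `φ`
satisfying `IsTameFrob 𝓤 I φ q`; `A` a finite-dimensional discrete representation of `G` over a field
`k` in which `q ≠ 0`, on which `I` acts trivially ("unramified").  Then

  `dim H¹_level(G, A) ≤ dim A^G + dim ker (φ - q | A)`

(`finrank_levelH1_le`).  For a Taylor–Wiles prime (`q ≡ 1` in `k`) both terms are `dim A^φ`.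

Also: `finrank_le_of_forall_finset`, a general "directed union" bound for dimensions.
-/
import Mathlib
import Fermat.Agent.TW.LocQ.TameDef61
import Fermat.Agent.TW.LocQ.Unipotent61

set_option autoImplicit false

universe u

open CategoryTheory groupCohomology Module
open Fermat.Agent.PT.PRO.LevelCoh28
open Fermat.Agent.TW.LocQ.UnramBound61 Fermat.Agent.TW.LocQ.TameDef61
open Fermat.Agent.TW.LocQ.Unipotent61 (cocycle_pow_of_fixed)

namespace Fermat.Agent.TW.LocQ.TamePrime61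

noncomputable section

section LinAlg

variable {k V : Type*} [Field k] [AddCommGroup V] [Module k V]

/-- If every finite subset of `S` lies in a subspace of dimension `≤ n`, then `dim S ≤ n`. -/
theorem finrank_le_of_forall_finset (S : Submodule k V) (n : ℕ)
    (H : ∀ t : Finset V, (∀ x ∈ t, x ∈ S) → ∃ T : Submodule k V, FiniteDimensional k T ∧
      finrank k T ≤ n ∧ ∀ x ∈ t, x ∈ T) :
    FiniteDimensional k S ∧ finrank k S ≤ n := by
  classical
  have hrank : Module.rank k S ≤ n := by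
    apply rank_le
    intro s hs
    obtain ⟨T, hTfin, hTn, hT⟩ := H (s.image (fun x : S => (x : V))) (by
      intro x hx
      obtain ⟨y, -, rfl⟩ := Finset.mem_image.1 hx
      exact y.2)
    have hmem : ∀ i : s, ((i : S) : V) ∈ T := fun i =>
      hT _ (Finset.mem_image.2 ⟨i.1, i.2, rfl⟩)
    have hli : LinearIndependent k (fun i : s => (⟨((i : S) : V), hmem i⟩ : T)) := by
      apply LinearIndependent.of_comp T.subtype
      have : (T.subtype ∘ fun i : s => (⟨((i : S) : V), hmem i⟩ : T)) =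
          S.subtype ∘ (fun i : s => (i : S)) := rfl
      rw [this]
      exact hs.map' S.subtype S.ker_subtype
    have := hli.fintype_card_le_finrank
    rw [Fintype.card_coe] at this
    exact this.trans hTn
  have hfin : FiniteDimensional k S :=
    Module.rank_lt_aleph0_iff.1 (hrank.trans_lt (Cardinal.natCast_lt_aleph0))
  exact ⟨hfin, finrank_le_of_rank_le hrank⟩

end LinAlg

variable {k G : Type u} [Field k] [Group G]

section Defs

variable (𝓤 : Set (Subgroup G)) (A : Rep.{u} k G)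

/-- The level 1-cocycles. -/
def levelCocycles (h𝓤 : IsLevelBasis 𝓤) : Submodule k (cocycles₁ A) where
  carrier := {c | IsLevel₁ 𝓤 (c : G → A)}
  add_mem' := fun hc hc' => hc.add h𝓤 hc'
  zero_mem' := isLevel₁_const h𝓤 (0 : A)
  smul_mem' := fun r _ hc => hc.comp (r • ·)

/-- The level ("continuous") classes in `H¹(G, A)`. -/
def levelH1 (h𝓤 : IsLevelBasis 𝓤) : Submodule k (H1 A) :=
  (levelCocycles 𝓤 A h𝓤).map (H1π A).hom

theorem mem_levelH1_iff (h𝓤 : IsLevelBasis 𝓤) (x : H1 A) :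
    x ∈ levelH1 𝓤 A h𝓤 ↔ ∃ c : cocycles₁ A, IsLevel₁ 𝓤 (c : G → A) ∧ (H1π A).hom c = x :=
  Iff.rfl

/-- The cocycles which are right-invariant under a fixed subgroup `U`. -/
def invCocycles (U : Subgroup G) : Submodule k (cocycles₁ A) where
  carrier := {c | InvOn₁ U (c : G → A)}
  add_mem' := by
    intro c c' hc hc' g s hs
    show c (g * s) + c' (g * s) = c g + c' g
    rw [hc g s hs, hc' g s hs]
  zero_mem' := fun _ _ _ => rfl
  smul_mem' := by
    intro r c hc g s hs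
    show r • c (g * s) = r • c g
    rw [hc g s hs]

end Defs

section Level

variable {𝓤 : Set (Subgroup G)} {A : Rep.{u} k G} {I : Subgroup G} {φ : G} {q : ℕ}

/-- A finite-dimensional discrete module is fixed pointwise by a normal level below any level. -/
theorem exists_trivial_level (h𝓤 : IsLevelBasis 𝓤) [FiniteDimensional k A] (hA : IsDiscrete 𝓤 A)
    (U₀ : Subgroup G) (hU₀ : U₀ ∈ 𝓤) :
    ∃ U ∈ 𝓤, U.Normal ∧ U ≤ U₀ ∧ ∀ u ∈ U, ∀ a : A, A.ρ u a = a := by
  obtain ⟨s, hs⟩ := Module.Finite.fg_top (R := k) (M := A)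
  obtain ⟨U₁, hU₁, -, hfix⟩ := hA.exists_fixing h𝓤 s.finite_toSet
  obtain ⟨U₂, hU₂, hle⟩ := h𝓤.directed U₀ hU₀ U₁ hU₁
  obtain ⟨U, hU, hUle, hUn⟩ := h𝓤.normalCore U₂ hU₂
  refine ⟨U, hU, hUn, hUle.trans (hle.trans inf_le_left), fun u hu a => ?_⟩
  have hu₁ : u ∈ U₁ := (hUle.trans (hle.trans inf_le_right)) hu
  have hmem : a ∈ Submodule.span k (s : Set A) := by rw [hs]; trivial
  refine Submodule.span_induction (p := fun a _ => A.ρ u a = a) ?_ ?_ ?_ ?_ hmem
  · intro x hx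
    exact hfix u hu₁ x hx
  · exact map_zero _
  · intro x y _ _ hx hy
    rw [map_add, hx, hy]
  · intro r x _ hx
    rw [map_smul, hx]

variable {U W : Subgroup G} {τ : G}

/-- On a module with trivial action of `I` and `U`, a `U`-invariant cocycle vanishes on the wild
subgroup `W`. -/
theorem apply_wild_eq_zero (hq : (q : k) ≠ 0) (ht : IsTameAt U I q W τ)
    (hI : ∀ i ∈ I, ∀ a : A, A.ρ i a = a) (hU : ∀ u ∈ U, ∀ a : A, A.ρ u a = a)
    (c : cocycles₁ A) (hc : InvOn₁ U (c : G → A)) {w : G} (hw : w ∈ W) : c w = 0 := by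
  obtain ⟨m, hm⟩ := ht.pow_mem w hw
  obtain ⟨i, hi, u, hu, rfl⟩ := ht.mem_mul w hw
  have hfix : A.ρ (i * u) (c (i * u)) = c (i * u) := by
    rw [map_mul, Module.End.mul_apply, hU u hu, hI i hi]
  have h1 : c ((i * u) ^ (q ^ m)) = ((q ^ m : ℕ) : k) • c (i * u) := cocycle_pow_of_fixed c hfix _
  rw [cocycle_eq_zero_of_invOn c hc hm] at h1
  have hne : ((q ^ m : ℕ) : k) ≠ 0 := by push_cast; exact pow_ne_zero _ hq
  exact (smul_eq_zero.mp h1.symm).resolve_left hne

/-- The value at the tame generator lies in the `q`-eigenspace of Frobenius. -/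
theorem frob_apply_tau (hq : (q : k) ≠ 0) (ht : IsTameAt U I q W τ)
    (hfr : ∃ w ∈ W, φ * τ * φ⁻¹ = τ ^ q * w)
    (hI : ∀ i ∈ I, ∀ a : A, A.ρ i a = a) (hU : ∀ u ∈ U, ∀ a : A, A.ρ u a = a)
    (c : cocycles₁ A) (hc : InvOn₁ U (c : G → A)) : A.ρ φ (c τ) = (q : k) • c τ := by
  obtain ⟨w, hw, hrel⟩ := hfr
  have hτ := ht.tau_mem
  have h1 : c (φ * τ * φ⁻¹) = A.ρ φ (c τ) := by
    have h0 : A.ρ φ (c φ⁻¹) + c φ = 0 := by
      rw [← cocycle_mul, mul_inv_cancel, cocycles₁_map_one]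
    rw [cocycle_mul, cocycle_mul, map_mul, Module.End.mul_apply, hI τ hτ]
    rw [add_comm (A.ρ φ (c τ)), ← add_assoc, h0, zero_add]
  have h2 : c (τ ^ q * w) = (q : k) • c τ := by
    rw [cocycle_mul, apply_wild_eq_zero hq ht hI hU c hc hw, map_zero, zero_add,
      cocycle_pow_of_fixed c (hI τ hτ _)]
  rw [← h1, hrel, h2]

/-- A `U`-invariant cocycle vanishing at `φ` and `τ` is zero. -/
theorem eq_zero_of_apply_frob_tau (h𝓤U : U ∈ 𝓤) (hd : IsFrobDense 𝓤 I φ) (hq : (q : k) ≠ 0)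
    (ht : IsTameAt U I q W τ)
    (hI : ∀ i ∈ I, ∀ a : A, A.ρ i a = a) (hU : ∀ u ∈ U, ∀ a : A, A.ρ u a = a)
    (c : cocycles₁ A) (hc : InvOn₁ U (c : G → A)) (hφ : c φ = 0) (hτ : c τ = 0) : c = 0 := by
  refine eq_zero_of_apply_frob hd c ⟨U, h𝓤U, hc⟩ (fun i hi => ?_) hφ
  obtain ⟨n, w, hw, rfl⟩ := ht.gen i hi
  rw [cocycle_mul, apply_wild_eq_zero hq ht hI hU c hc hw, map_zero, zero_add,
    cocycle_pow_eq_zero c hτ]

variable (A) in
/-- The `q`-eigenspace of Frobenius. -/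
def frobEigen (φ : G) (q : ℕ) : Submodule k A := LinearMap.ker (A.ρ φ - (q : k) • (1 : Module.End k A))

theorem mem_frobEigen {a : A} : a ∈ frobEigen A φ q ↔ A.ρ φ a = (q : k) • a := by
  rw [frobEigen, LinearMap.mem_ker, LinearMap.sub_apply, LinearMap.smul_apply,
    Module.End.one_apply, sub_eq_zero]

/-- Evaluation of `U`-invariant cocycles at `φ` and `τ`. -/
def evPair (hq : (q : k) ≠ 0) (ht : IsTameAt U I q W τ) (hfr : ∃ w ∈ W, φ * τ * φ⁻¹ = τ ^ q * w)
    (hI : ∀ i ∈ I, ∀ a : A, A.ρ i a = a) (hU : ∀ u ∈ U, ∀ a : A, A.ρ u a = a) :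
    invCocycles A U →ₗ[k] A × frobEigen A φ q where
  toFun c := ((c : cocycles₁ A) φ,
    ⟨(c : cocycles₁ A) τ, mem_frobEigen.2 (frob_apply_tau hq ht hfr hI hU c c.2)⟩)
  map_add' _ _ := rfl
  map_smul' _ _ := rfl

theorem evPair_injective (h𝓤U : U ∈ 𝓤) (hd : IsFrobDense 𝓤 I φ) (hq : (q : k) ≠ 0)
    (ht : IsTameAt U I q W τ) (hfr : ∃ w ∈ W, φ * τ * φ⁻¹ = τ ^ q * w)
    (hI : ∀ i ∈ I, ∀ a : A, A.ρ i a = a) (hU : ∀ u ∈ U, ∀ a : A, A.ρ u a = a) :
    Function.Injective (evPair (A := A) hq ht hfr hI hU) := by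
  refine (injective_iff_map_eq_zero _).2 fun c hc => ?_
  have h1 : (c : cocycles₁ A) φ = 0 := congrArg Prod.fst hc
  have h2 : (c : cocycles₁ A) τ = 0 := congrArg (fun x => (x.2 : A)) hc
  exact Subtype.ext (eq_zero_of_apply_frob_tau h𝓤U hd hq ht hI hU (c : cocycles₁ A) c.2 h1 h2)

/-- The coboundary map into the `U`-invariant cocycles (`U` acting trivially). -/
def dInv (hU : ∀ u ∈ U, ∀ a : A, A.ρ u a = a) : A →ₗ[k] invCocycles A U where
  toFun a := ⟨⟨(d₀₁ A).hom a, d₀₁_apply_mem_cocycles₁ a⟩, fun g s hs => by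
    show (d₀₁ A).hom a (g * s) = (d₀₁ A).hom a g
    rw [d₀₁_hom_apply, d₀₁_hom_apply, map_mul, Module.End.mul_apply, hU s hs]⟩
  map_add' a b := by
    apply Subtype.ext; apply Subtype.ext
    show (d₀₁ A).hom (a + b) = (d₀₁ A).hom a + (d₀₁ A).hom b
    rw [map_add]
  map_smul' r a := by
    apply Subtype.ext; apply Subtype.ext
    show (d₀₁ A).hom (r • a) = r • (d₀₁ A).hom a
    rw [map_smul]

theorem dInv_apply (hU : ∀ u ∈ U, ∀ a : A, A.ρ u a = a) (a : A) (g : G) :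
    ((dInv hU a : invCocycles A U) : cocycles₁ A) g = A.ρ g a - a := by
  show (d₀₁ A).hom a g = _
  rw [d₀₁_hom_apply]

theorem ker_dInv (hU : ∀ u ∈ U, ∀ a : A, A.ρ u a = a) :
    LinearMap.ker (dInv hU) = A.ρ.invariants := by
  ext a
  rw [LinearMap.mem_ker]
  constructor
  · intro h g
    have := dInv_apply hU a g
    rw [h] at this
    have h0 : ((0 : invCocycles A U) : cocycles₁ A) g = 0 := rfl
    rw [h0] at this
    exact sub_eq_zero.mp this.symm
  · intro h
    apply Subtype.ext; ext g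
    rw [dInv_apply]
    show A.ρ g a - a = 0
    rw [h g, sub_self]

/-- The class map on `U`-invariant cocycles. -/
def classInv (U : Subgroup G) : invCocycles A U →ₗ[k] H1 A :=
  (H1π A).hom ∘ₗ (invCocycles A U).subtype

theorem ker_classInv (hU : ∀ u ∈ U, ∀ a : A, A.ρ u a = a) :
    LinearMap.ker (classInv (A := A) U) = LinearMap.range (dInv hU) := by
  ext c
  rw [LinearMap.mem_ker]
  constructor
  · intro h
    have h' : (H1π A) (c : cocycles₁ A) = 0 := h
    obtain ⟨m, hm⟩ := (H1π_eq_zero_iff (c : cocycles₁ A)).1 h'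
    refine ⟨m, ?_⟩
    apply Subtype.ext; apply Subtype.ext
    exact hm
  · rintro ⟨a, rfl⟩
    show (H1π A) ((dInv hU a : invCocycles A U) : cocycles₁ A) = 0
    exact (H1π_eq_zero_iff _).2 ⟨a, rfl⟩

/-- The bound at a fixed level. -/
theorem finrank_range_classInv_le [FiniteDimensional k A] (h𝓤U : U ∈ 𝓤)
    (hd : IsFrobDense 𝓤 I φ) (hq : (q : k) ≠ 0)
    (ht : IsTameAt U I q W τ) (hfr : ∃ w ∈ W, φ * τ * φ⁻¹ = τ ^ q * w)
    (hI : ∀ i ∈ I, ∀ a : A, A.ρ i a = a) (hU : ∀ u ∈ U, ∀ a : A, A.ρ u a = a) :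
    FiniteDimensional k (LinearMap.range (classInv (A := A) U)) ∧
      finrank k (LinearMap.range (classInv (A := A) U)) ≤
        finrank k A.ρ.invariants + finrank k (frobEigen A φ q) := by
  have hinj := evPair_injective (A := A) h𝓤U hd hq ht hfr hI hU
  have hfd : FiniteDimensional k (invCocycles A U) := FiniteDimensional.of_injective _ hinj
  have h1 : finrank k (invCocycles A U) ≤ finrank k (A × frobEigen A φ q) :=
    LinearMap.finrank_le_finrank_of_injective hinj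
  rw [Module.finrank_prod] at h1
  have h2 := LinearMap.finrank_range_add_finrank_ker (K := k) (V := invCocycles A U)
    (V₂ := H1 A) (classInv (A := A) U)
  have h3 := LinearMap.finrank_range_add_finrank_ker (K := k) (V := A)
    (V₂ := invCocycles A U) (dInv hU)
  rw [ker_classInv hU] at h2
  rw [ker_dInv hU] at h3
  refine ⟨inferInstance, ?_⟩
  omega

end Level

section Main

variable {𝓤 : Set (Subgroup G)} {A : Rep.{u} k G} {I : Subgroup G} {φ : G} {q : ℕ}

/-- Finitely many level cocycles have a common normal level acting trivially on `A`. -/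
theorem exists_common_level (h𝓤 : IsLevelBasis 𝓤) [FiniteDimensional k A] (hA : IsDiscrete 𝓤 A)
    (t : Finset (H1 A)) (ht : ∀ x ∈ t, x ∈ levelH1 𝓤 A h𝓤) :
    ∃ U ∈ 𝓤, U.Normal ∧ (∀ u ∈ U, ∀ a : A, A.ρ u a = a) ∧
      ∀ x ∈ t, x ∈ LinearMap.range (classInv (A := A) U) := by
  classical
  induction t using Finset.induction_on with
  | empty =>
    obtain ⟨U₀, hU₀⟩ := h𝓤.nonempty
    obtain ⟨U, hU, hUn, -, hfix⟩ := exists_trivial_level h𝓤 hA U₀ hU₀
    exact ⟨U, hU, hUn, hfix, fun x hx => absurd hx (Finset.notMem_empty x)⟩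
  | insert y t _ ih =>
    obtain ⟨U₁, hU₁, -, -, h1⟩ := ih fun x hx => ht x (Finset.mem_insert_of_mem hx)
    obtain ⟨c, ⟨U₂, hU₂, hc⟩, hcy⟩ := ht y (Finset.mem_insert_self y t)
    obtain ⟨U₃, hU₃, hle⟩ := h𝓤.directed U₁ hU₁ U₂ hU₂
    obtain ⟨U, hU, hUn, hUle, hfix⟩ := exists_trivial_level h𝓤 hA U₃ hU₃
    have hUU₁ : U ≤ U₁ := hUle.trans (hle.trans inf_le_left)
    have hUU₂ : U ≤ U₂ := hUle.trans (hle.trans inf_le_right)
    refine ⟨U, hU, hUn, hfix, fun x hx => ?_⟩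
    rcases Finset.mem_insert.1 hx with rfl | hx
    · exact ⟨⟨c, hc.mono hUU₂⟩, hcy⟩
    · obtain ⟨c', hc'⟩ := h1 x hx
      exact ⟨⟨(c' : cocycles₁ A), c'.2.mono hUU₁⟩, hc'⟩

/-- **The tame count**: for an unramified finite-dimensional discrete module `A` over a field in
which `q ≠ 0`, `dim H¹_level(G, A) ≤ dim A^G + dim ker (φ - q)`. -/
theorem finrank_levelH1_le (h𝓤 : IsLevelBasis 𝓤) [FiniteDimensional k A] (hA : IsDiscrete 𝓤 A)
    (htf : IsTameFrob 𝓤 I φ q) (hq : (q : k) ≠ 0) (hI : ∀ i ∈ I, ∀ a : A, A.ρ i a = a) :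
    FiniteDimensional k (levelH1 𝓤 A h𝓤) ∧
      finrank k (levelH1 𝓤 A h𝓤) ≤ finrank k A.ρ.invariants + finrank k (frobEigen A φ q) := by
  apply finrank_le_of_forall_finset
  intro t ht
  obtain ⟨U, hU, hUn, hfix, hmem⟩ := exists_common_level h𝓤 hA t ht
  obtain ⟨W, τ, hta, hfr⟩ := htf.tame U hU hUn
  obtain ⟨hfd, hle⟩ := finrank_range_classInv_le (A := A) hU htf.toIsFrobDense hq hta hfr hI hfix
  exact ⟨_, hfd, hle, hmem⟩

end Main

end

end Fermat.Agent.TW.LocQ.TamePrime61
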