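/-
TW programme, WP5 -- helper61.  Elementary facts on `2 × 2` matrices over a field used in the
analysis of unipotent inertia:

* `mul_add_mul_eq`   : polarised Cayley–Hamilton `X Y + Y X = tr X • Y + tr Y • X + (tr XY - tr X tr Y) • 1`;
* `mul_self_eq`      : Cayley–Hamilton `N N = tr N • N - det N • 1`;
* `det_sub_one`      : `det (T - 1) = det T - tr T + 1`;
* `one_add_pow`      : `(1 + N) ^ n = 1 + n • N` if `N N = 0`;
* `exists_trace_mul_eq_one` : the trace form on trace-zero matrices is nondegenerate (`2 ≠ 0`);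
* `exists_comm_eq`   : if `N ≠ 0`, `N N = 0`, `tr N = 0`, `tr Y = 0 = tr (Y N)` then `Y = X N - N X`.
-/
import Mathlib

set_option autoImplicit false

namespace Fermat.Agent.TW.LocQ.MatTwo61

open Matrix

variable {k : Type*} [Field k]

local notation "M₂" => Matrix (Fin 2) (Fin 2) k

theorem mul_add_mul_eq (X Y : M₂) :
    X * Y + Y * X = trace X • Y + trace Y • X + (trace (X * Y) - trace X * trace Y) • (1 : M₂) := by
  ext i j
  fin_cases i <;> fin_cases j <;>
    simp [Matrix.mul_apply, Fin.sum_univ_two, Matrix.trace_fin_two] <;> ring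

theorem trace_mul_fin_two (Z N : M₂) :
    trace (Z * N) = Z 0 0 * N 0 0 + Z 0 1 * N 1 0 + Z 1 0 * N 0 1 + Z 1 1 * N 1 1 := by
  rw [Matrix.trace_fin_two, Matrix.mul_apply, Matrix.mul_apply, Fin.sum_univ_two, Fin.sum_univ_two]
  ring

theorem mul_self_eq (N : M₂) : N * N = trace N • N - det N • (1 : M₂) := by
  ext i j
  fin_cases i <;> fin_cases j <;>
    simp [Matrix.mul_apply, Fin.sum_univ_two, Matrix.trace_fin_two, Matrix.det_fin_two] <;> ring

theorem det_sub_one (T : M₂) : det (T - 1) = det T - trace T + 1 := by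
  simp [Matrix.det_fin_two, Matrix.trace_fin_two]
  ring

/-- A matrix with trace `2` and determinant `1` is `1 + N` with `N N = 0`. -/
theorem sub_one_mul_self {T : M₂} (htr : trace T = 2) (hdet : det T = 1) :
    (T - 1) * (T - 1) = 0 := by
  rw [mul_self_eq, det_sub_one, hdet, htr, trace_sub, htr]
  simp
  norm_num

theorem one_add_pow {N : M₂} (hN : N * N = 0) (n : ℕ) : (1 + N) ^ n = 1 + (n : k) • N := by
  induction n with
  | zero => simp
  | succ n ih =>
    rw [pow_succ, ih, add_mul, mul_add, mul_add, one_mul, mul_one, one_mul, smul_mul_assoc, hN,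
      smul_zero, add_zero, Nat.cast_succ, add_smul, one_smul, add_assoc, add_comm N]

theorem exists_trace_mul_eq_one (h2 : (2 : k) ≠ 0) {N : M₂} (hN : N ≠ 0) (htr : trace N = 0) :
    ∃ Z : M₂, trace Z = 0 ∧ trace (Z * N) = 1 := by
  by_cases h01 : N 0 1 = 0
  · by_cases h10 : N 1 0 = 0
    · have h00 : N 0 0 ≠ 0 := by
        intro h00
        apply hN
        have h11 : N 1 1 = 0 := by
          rw [Matrix.trace_fin_two, h00, zero_add] at htr
          exact htr
        ext i j
        fin_cases i <;> fin_cases j <;> simp [h00, h01, h10, h11]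
      have h11 : N 1 1 = - N 0 0 := by
        rw [Matrix.trace_fin_two] at htr
        exact eq_neg_of_add_eq_zero_right htr
      refine ⟨!![(2 * N 0 0)⁻¹, 0; 0, -(2 * N 0 0)⁻¹], ?_, ?_⟩
      · simp [Matrix.trace_fin_two]
      · rw [trace_mul_fin_two, h11]
        simp
        field_simp
        ring
    · refine ⟨!![0, (N 1 0)⁻¹; 0, 0], ?_, ?_⟩
      · simp [Matrix.trace_fin_two]
      · rw [trace_mul_fin_two]
        simp [h10]
  · refine ⟨!![0, 0; (N 0 1)⁻¹, 0], ?_, ?_⟩
    · simp [Matrix.trace_fin_two]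
    · rw [trace_mul_fin_two]
      simp [h01]

/-- If `N ≠ 0` is nilpotent of trace zero and `Y` is orthogonal to `1` and `N` for the trace form,
then `Y` is a commutator with `N`. -/
theorem exists_comm_eq (h2 : (2 : k) ≠ 0) {N Y : M₂} (hN : N ≠ 0) (htr : trace N = 0)
    (hY : trace Y = 0) (hYN : trace (Y * N) = 0) :
    ∃ X : M₂, Y = X * N - N * X := by
  obtain ⟨Z, hZ, hZN⟩ := exists_trace_mul_eq_one h2 hN htr
  have h1 : Y * N + N * Y = 0 := by
    rw [mul_add_mul_eq, hY, htr, hYN]; simp
  have h2' : Z * N + N * Z = 1 := by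
    rw [mul_add_mul_eq, hZ, htr, hZN]; simp
  refine ⟨Y * Z, ?_⟩
  have h3 : N * Y = -(Y * N) := eq_neg_of_add_eq_zero_right h1
  calc Y = Y * (Z * N + N * Z) := by rw [h2', mul_one]
    _ = Y * Z * N - N * (Y * Z) := by
      rw [mul_add, ← mul_assoc, ← mul_assoc, ← mul_assoc N Y Z, h3]; simp [mul_assoc]

end Fermat.Agent.TW.LocQ.MatTwo61
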