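/-
TW programme, WP5b (local at a Taylor–Wiles prime `q ≠ p`) -- helper61.

**The global tame structure with its Frobenius relation.**  `A` a valuation subring of `ℚ̄` over the
prime `q`, `I = A.inertiaSubgroupIn ℚ`, `φ` a Frobenius element at `A`, `K ⊂ ℚ̄` finite normal.
On top of helper96's tame character (`TameImage96.tameChar`) we prove

* `tameChar_congr`     : the tame character only depends on the valuation of the uniformizer;
* `tameChar_conj_frob` : `θ (φ σ φ⁻¹) = θ (σ) ^ q`;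
* `exists_tame_structure` : there are a subgroup `Wd ≤ I` (wild inertia relative to `K`) and
  `σ₀ ∈ I` such that every `w ∈ Wd` has a `q`-power in `Fix K`, every `σ ∈ I` is `σ₀ ^ n * w`
  (`n : ℕ`, `w ∈ Wd`), and `φ σ₀ φ⁻¹ = σ₀ ^ q * w` with `w ∈ Wd`.
-/
import Mathlib
import Fermat.Agent.TW.LocalQ.TameImage96
import Fermat.Agent.TW.LocalQ.FrobGen96
import Fermat.Agent.ES.FROB.FrobFacts12

set_option autoImplicit false
set_option linter.style.haveILetI false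

namespace Fermat.Agent.TW.LocQ.TameFrobGlobal61

open Fermat.Agent.S05.Inertia
open Fermat.Agent.TW.LocalQ.TameImage96 Fermat.Agent.TW.LocalQ.FrobGen96

local notation "Qb" => AlgebraicClosure ℚ
local notation "GQ" => (AlgebraicClosure ℚ ≃ₐ[ℚ] AlgebraicClosure ℚ)

variable {A : ValuationSubring Qb} {q : ℕ}

theorem resOf_pow {x : Qb} (hx : x ∈ A) (n : ℕ) : resOf A (x ^ n) = resOf A x ^ n := by
  induction n with
  | zero => simp [resOf_one]
  | succ n ih => rw [pow_succ, pow_succ, resOf_mul (pow_mem hx n) hx, ih]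

/-- The tame character only depends on the valuation of the uniformizer. -/
theorem tameChar_congr {π π' : Qb} (hπ0 : π ≠ 0) (hπ'0 : π' ≠ 0)
    (hv : A.valuation π' = A.valuation π) (σ : ↥(A.inertiaSubgroupIn ℚ)) :
    tameChar A π' hπ'0 σ = tameChar A π hπ0 σ := by
  apply Units.ext
  show resOf A (σ.1 π' / π') = resOf A (σ.1 π / π)
  set u : Qb := π' / π with hu
  have hu0 : u ≠ 0 := div_ne_zero hπ'0 hπ0
  have hπ' : π' = u * π := by rw [hu]; field_simp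
  have hσπ0 : σ.1 π ≠ 0 := by simpa using hπ0
  have hσu0 : σ.1 u ≠ 0 := by simpa using hu0
  have e : σ.1 π' / π' = (σ.1 u / u) * (σ.1 π / π) := by
    rw [hπ', map_mul]; field_simp
  have huv : A.valuation u = 1 := by
    rw [hu, map_div₀, hv, div_self]
    exact (Valuation.ne_zero_iff _).mpr hπ0
  have huA : u ∈ A := (A.valuation_le_one_iff _).mp huv.le
  have h1 : σ.1 u / u ∈ A := ratio_mem σ.2 hu0
  have h2 : σ.1 π / π ∈ A := ratio_mem σ.2 hπ0
  rw [e, resOf_mul h1 h2]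
  have h3 : resOf A (σ.1 u / u) = 1 := by
    rw [← resOf_one, resOf_eq_iff h1 A.one_mem]
    have e2 : σ.1 u / u - 1 = (σ.1 u - u) / u := by field_simp
    rw [e2, map_div₀, huv, div_one]
    exact (ValuationSubring.mem_nonunits_iff (A := A)).mp (apply_sub_mem_nonunits σ.2 huA)
  rw [h3, one_mul]

/-- Conjugation by the decomposition group preserves inertia. -/
theorem conj_mem_inertia {g σ : GQ} (hg : g ∈ A.decompositionSubgroup ℚ)
    (hσ : σ ∈ A.inertiaSubgroupIn ℚ) : g * σ * g⁻¹ ∈ A.inertiaSubgroupIn ℚ :=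
  Fermat.Agent.ES.FROB.FrobFacts12.conj_mem_inertiaSubgroupIn A hg hσ

/-- **Frobenius acts on the tame character by the `q`-th power.** -/
theorem tameChar_conj_frob {π : Qb} (hπ0 : π ≠ 0) {φ : GQ} (hφ : A.IsFrobeniusAt φ q)
    (σ : ↥(A.inertiaSubgroupIn ℚ)) :
    tameChar A π hπ0 ⟨φ * σ.1 * φ⁻¹, conj_mem_inertia hφ.mem_decompositionSubgroup σ.2⟩
      = tameChar A π hπ0 σ ^ q := by
  have hφD := hφ.mem_decompositionSubgroup
  set π' : Qb := φ⁻¹ π with hπ'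
  have hπ'0 : π' ≠ 0 := by rw [hπ']; simpa using hπ0
  have hφπ' : φ π' = π := by rw [hπ']; exact AlgEquiv.apply_symm_apply φ π
  have hv : A.valuation π' = A.valuation π := by
    rw [hπ']; exact decomp_valuation_apply (inv_mem hφD) π
  rw [← tameChar_congr hπ0 hπ'0 hv σ]
  apply Units.ext
  rw [Units.val_pow_eq_pow_val]
  show resOf A ((φ * σ.1 * φ⁻¹) π / π) = resOf A (σ.1 π' / π') ^ q
  have hx : σ.1 π' / π' ∈ A := ratio_mem σ.2 hπ'0
  have e : (φ * σ.1 * φ⁻¹) π / π = φ (σ.1 π' / π') := by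
    rw [map_div₀, hφπ', AlgEquiv.mul_apply, AlgEquiv.mul_apply]
  rw [e, ← resOf_pow hx, resOf_eq_iff ((apply_mem_iff_of_mem_decomposition hφD _).mpr hx)
    (pow_mem hx q)]
  exact frob_sub_pow_lt hφ hx

section Structure

variable {K : IntermediateField ℚ Qb}

/-- A generator of tame inertia with natural exponents. -/
theorem exists_tame_generator_nat [FiniteDimensional ℚ K] {π : Qb} (hπK : π ∈ K) (hπ0 : π ≠ 0) :
    ∃ σ₀ : ↥(A.inertiaSubgroupIn ℚ), ∀ σ : ↥(A.inertiaSubgroupIn ℚ), ∃ n : ℕ,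
      (σ₀ ^ n)⁻¹ * σ ∈ (tameChar A π hπ0).ker := by
  haveI := finite_range_tameChar (A := A) hπK hπ0
  haveI : IsCyclic (tameChar A π hπ0).range := isCyclic_subgroup_units _
  obtain ⟨⟨t, ⟨σ₀, rfl⟩⟩, ht⟩ := IsCyclic.exists_generator (α := (tameChar A π hπ0).range)
  refine ⟨σ₀, fun σ => ?_⟩
  have h1 := ht ⟨tameChar A π hπ0 σ, ⟨σ, rfl⟩⟩
  rw [← mem_powers_iff_mem_zpowers] at h1
  obtain ⟨n, hn⟩ := Submonoid.mem_powers_iff _ _ |>.mp h1
  refine ⟨n, ?_⟩
  have h2 : tameChar A π hπ0 σ₀ ^ n = tameChar A π hπ0 σ := by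
    have := congrArg Subtype.val hn
    simpa using this
  rw [MonoidHom.mem_ker, map_mul, map_inv, map_pow, h2, inv_mul_cancel]

/-- **The tame structure of `I_A` relative to a finite normal `K`, with the Frobenius relation.** -/
theorem exists_tame_structure [FiniteDimensional ℚ K] [Normal ℚ K] (hq : q.Prime)
    (hA : A.LiesOverPrime q) {φ : GQ} (hφ : A.IsFrobeniusAt φ q) :
    ∃ (Wd : Subgroup GQ) (σ₀ : GQ), Wd ≤ A.inertiaSubgroupIn ℚ ∧ σ₀ ∈ A.inertiaSubgroupIn ℚ ∧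
      (∀ w ∈ Wd, ∃ a : ℕ, w ^ q ^ a ∈ K.fixingSubgroup) ∧
      (∀ σ ∈ A.inertiaSubgroupIn ℚ, ∃ n : ℕ, (σ₀ ^ n)⁻¹ * σ ∈ Wd) ∧
      (σ₀ ^ q)⁻¹ * (φ * σ₀ * φ⁻¹) ∈ Wd := by
  obtain ⟨π, hπ⟩ := exists_isUnif K hq hA
  obtain ⟨σ₀, hσ₀⟩ := exists_tame_generator_nat (A := A) (K := K) hπ.mem hπ.ne_zero
  refine ⟨(tameChar A π hπ.ne_zero).ker.map (A.inertiaSubgroupIn ℚ).subtype, σ₀.1, ?_, σ₀.2,
    ?_, ?_, ?_⟩
  · rintro _ ⟨w, -, rfl⟩
    exact w.2
  · rintro _ ⟨w, hw, rfl⟩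
    have hw' := (tameChar_eq_one_iff hπ.ne_zero w).mp hw
    haveI := finiteIndex_fixingSubgroup96 K
    obtain ⟨N, hN0, -, hN⟩ := Subgroup.exists_pow_mem_of_index_ne_zero
      (Subgroup.FiniteIndex.index_ne_zero (H := K.fixingSubgroup)) (w : GQ)
    exact pow_mem_fixingSubgroup_of_wild hq hA hπ w.2 hw' hN0.ne' hN
  · intro σ hσ
    obtain ⟨n, hn⟩ := hσ₀ ⟨σ, hσ⟩
    refine ⟨n, Subgroup.mem_map.mpr ⟨_, hn, ?_⟩⟩
    rw [map_mul, map_inv, map_pow]
    rfl
  · have hc := conj_mem_inertia hφ.mem_decompositionSubgroup σ₀.2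
    have h1 : (σ₀ ^ q)⁻¹ * ⟨φ * σ₀.1 * φ⁻¹, hc⟩ ∈ (tameChar A π hπ.ne_zero).ker := by
      rw [MonoidHom.mem_ker, map_mul, map_inv, map_pow,
        tameChar_conj_frob hπ.ne_zero hφ σ₀, inv_mul_cancel]
    refine Subgroup.mem_map.mpr ⟨_, h1, ?_⟩
    rw [map_mul, map_inv, map_pow]
    rfl

end Structure

end Fermat.Agent.TW.LocQ.TameFrobGlobal61
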