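/-
TW programme, WP5b (local at a Taylor–Wiles prime `q ≠ p`) -- helper61.

**The local Galois group at `q` has the abstract tame structure `TameDef61.IsTameFrob`.**

* `isTameAt_mono`        : a tame structure at a level gives one at every larger normal level.
* `isTameFrob_of_global` : transfer of helper96's global tame structure (`TameFrobGlobal61`,
  `TameImage96`, `FrobGen96`) along any `r : G →* G_ℚ` with `r(G) ⊆ D_A`, `I_A ⊆ r(G)` and a
  Frobenius in the image; levels `= Interface29.levelsOf r`, inertia `= r⁻¹(I_A)`.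
* `exists_frobLoc`, `isTameFrob_primeLocal` : the case `G = primeLocalGaloisGroup q`,
  `A = primeLocalPlace q` (surjectivity onto `D_A` from helper97's `LocalGlobal97`).
-/
import Mathlib
import Fermat.Agent.TW.LocQ.TameDef61
import Fermat.Agent.TW.LocQ.TameFrobGlobal61
import Fermat.Agent.TW.Bridge.LocalGlobal97
import Fermat.Agent.PT.BR.Interface29

set_option autoImplicit false
set_option linter.style.haveILetI false

namespace Fermat.Agent.TW.LocQ.TameLocal61

open Fermat.Agent.TW.LocQ.UnramBound61 Fermat.Agent.TW.LocQ.TameDef61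
open Fermat.Agent.TW.LocQ.TameFrobGlobal61
open Fermat.Agent.TW.LocalQ.FrobGen96
open Fermat.Agent.PT.BR.Interface29

local notation "Qb" => AlgebraicClosure ℚ
local notation "GQ" => (AlgebraicClosure ℚ ≃ₐ[ℚ] AlgebraicClosure ℚ)

section Abstract

variable {G : Type*} [Group G]

theorem mul_pow_mem_of_normal {N : Subgroup G} [hN : N.Normal] {y z : G} (hz : z ∈ N) {n : ℕ}
    (hy : y ^ n ∈ N) : (y * z) ^ n ∈ N := by
  rw [← QuotientGroup.eq_one_iff] at hy hz ⊢
  rw [QuotientGroup.mk_pow] at hy ⊢
  rw [QuotientGroup.mk_mul, hz, mul_one, hy]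

/-- A tame structure at a level `U'` gives one at every larger normal level `U`. -/
theorem isTameAt_mono {U U' I W' : Subgroup G} {q : ℕ} {τ : G} (h : IsTameAt U' I q W' τ)
    (hle : U' ≤ U) [hU : U.Normal] : IsTameAt U I q (W' ⊔ U) τ where
  le := le_sup_right
  mem_mul := by
    intro w hw
    obtain ⟨y, hy, z, hz, rfl⟩ := Subgroup.mem_sup_of_normal_right.mp hw
    obtain ⟨i, hi, u, hu, rfl⟩ := h.mem_mul y hy
    exact ⟨i, hi, u * z, U.mul_mem (hle hu) hz, mul_assoc _ _ _⟩
  pow_mem := by
    intro w hw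
    obtain ⟨y, hy, z, hz, rfl⟩ := Subgroup.mem_sup_of_normal_right.mp hw
    obtain ⟨m, hm⟩ := h.pow_mem y hy
    exact ⟨m, mul_pow_mem_of_normal hz (hle hm)⟩
  tau_mem := h.tau_mem
  gen := by
    intro i hi
    obtain ⟨n, w, hw, e⟩ := h.gen i hi
    exact ⟨n, w, (le_sup_left : W' ≤ W' ⊔ U) hw, e⟩

end Abstract


section Transfer

variable {G : Type} [Group G] (r : G →* GQ) {A : ValuationSubring Qb} {q : ℕ}

local instance isAlgClosureQb61 : IsAlgClosure ℚ Qb := ⟨inferInstance, inferInstance⟩
local instance normalQb61 : Normal ℚ Qb := IsAlgClosure.normal ℚ Qb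
local instance isGaloisQb61 : IsGalois ℚ Qb := IsAlgClosure.isGalois ℚ Qb

theorem normal_fixingSubgroup_of_normal (K : IntermediateField ℚ Qb) [Normal ℚ K] :
    K.fixingSubgroup.Normal :=
  normal_fixingSubgroup K ⟨⟩

/-- The inertia subgroup of a group mapping into the decomposition group. -/
noncomputable def inertiaOf (A : ValuationSubring Qb) : Subgroup G := (A.inertiaSubgroupIn ℚ).comap r

theorem mem_inertiaOf {g : G} : g ∈ inertiaOf r A ↔ r g ∈ A.inertiaSubgroupIn ℚ := Iff.rfl

variable {r}

/-- **Transfer of the global tame structure** to a group `G` mapping onto (at least the inertia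
part of) the decomposition group `D_A`. -/
theorem isTameFrob_of_global (hq : q.Prime) (hA : A.LiesOverPrime q)
    (hD : ∀ g : G, r g ∈ A.decompositionSubgroup ℚ) (hI : A.inertiaSubgroupIn ℚ ≤ r.range)
    {φ : G} (hφ : A.IsFrobeniusAt (r φ) q) :
    IsTameFrob (levelsOf r) (inertiaOf r A) φ q where
  normal := ⟨fun i hi g => by
    rw [mem_inertiaOf, map_mul, map_mul, map_inv]
    exact conj_mem_inertia (hD g) hi⟩
  dense := by
    rintro U ⟨F, hF, rfl⟩ g
    haveI := hF
    let K : IntermediateField ℚ Qb := IntermediateField.normalClosure ℚ F Qb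
    haveI : FiniteDimensional ℚ K := normalClosure.is_finiteDimensional ℚ F Qb
    haveI : Normal ℚ K := normalClosure.normal ℚ F Qb
    have hKF : K.fixingSubgroup ≤ F.fixingSubgroup :=
      IntermediateField.fixingSubgroup_antitone (IntermediateField.le_normalClosure F)
    obtain ⟨n, τ, hτ, hu⟩ := exists_frob_pow_mul_inertia (K := K) hq hA hφ (hD g)
    obtain ⟨t, rfl⟩ := hI hτ
    refine ⟨n, t, hτ, (φ ^ n * t)⁻¹ * g, ?_, by group⟩
    rw [Subgroup.mem_comap, map_mul, map_inv, map_mul, map_pow]
    exact hKF hu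
  tame := by
    rintro U ⟨F, hF, rfl⟩ hUn
    haveI := hF
    let K : IntermediateField ℚ Qb := IntermediateField.normalClosure ℚ F Qb
    haveI : FiniteDimensional ℚ K := normalClosure.is_finiteDimensional ℚ F Qb
    haveI : Normal ℚ K := normalClosure.normal ℚ F Qb
    have hKF : K.fixingSubgroup ≤ F.fixingSubgroup :=
      IntermediateField.fixingSubgroup_antitone (IntermediateField.le_normalClosure F)
    haveI hKn : K.fixingSubgroup.Normal := normal_fixingSubgroup_of_normal K
    obtain ⟨Wd, σ₀, hWd, hσ₀, hpow, hgen, hfr⟩ := exists_tame_structure (K := K) hq hA hφ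
    obtain ⟨τ, rfl⟩ := hI hσ₀
    -- the structure at the level of `K`
    have hK : IsTameAt (K.fixingSubgroup.comap r) (inertiaOf r A) q
        ((Wd ⊔ K.fixingSubgroup).comap r) τ :=
      { le := Subgroup.comap_mono le_sup_right
        mem_mul := by
          intro w hw
          obtain ⟨y, hy, z, hz, e⟩ := Subgroup.mem_sup_of_normal_right.mp (Subgroup.mem_comap.mp hw)
          obtain ⟨i, rfl⟩ := hI (hWd hy)
          refine ⟨i, hWd hy, i⁻¹ * w, ?_, by group⟩
          rw [Subgroup.mem_comap, map_mul, map_inv, ← e, inv_mul_cancel_left]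
          exact hz
        pow_mem := by
          intro w hw
          obtain ⟨y, hy, z, hz, e⟩ := Subgroup.mem_sup_of_normal_right.mp (Subgroup.mem_comap.mp hw)
          obtain ⟨a, ha⟩ := hpow y hy
          refine ⟨a, ?_⟩
          rw [Subgroup.mem_comap, map_pow, ← e]
          exact mul_pow_mem_of_normal hz ha
        tau_mem := hσ₀
        gen := by
          intro i hi
          obtain ⟨n, hn⟩ := hgen (r i) hi
          refine ⟨n, (τ ^ n)⁻¹ * i, ?_, by group⟩
          rw [Subgroup.mem_comap, map_mul, map_inv, map_pow]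
          exact (le_sup_left : Wd ≤ Wd ⊔ K.fixingSubgroup) hn }
    haveI := hUn
    refine ⟨_, τ, isTameAt_mono hK (Subgroup.comap_mono hKF), (τ ^ q)⁻¹ * (φ * τ * φ⁻¹), ?_, by group⟩
    apply (le_sup_left : (Wd ⊔ K.fixingSubgroup).comap r ≤ _)
    rw [Subgroup.mem_comap, map_mul, map_inv, map_pow, map_mul, map_mul, map_inv]
    exact (le_sup_left : Wd ≤ Wd ⊔ K.fixingSubgroup) hfr

end Transfer


section Primes

open ExtCitation Fermat.Agent.TW.Bridge.LocalGlobal97 Fermat.Agent.TW.OrdLocal.PadicPlace97

variable (q : Nat.Primes)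

/-- The inertia subgroup of the local Galois group at `q`. -/
noncomputable def inertiaLoc : Subgroup (primeLocalGaloisGroup q) :=
  inertiaOf (primeLocalToGlobal q) (primeLocalPlace q)

theorem mem_inertiaLoc {g : primeLocalGaloisGroup q} :
    g ∈ inertiaLoc q ↔ primeLocalToGlobal q g ∈ (primeLocalPlace q).inertiaSubgroupIn ℚ := Iff.rfl

/-- A Frobenius element exists in the local Galois group. -/
theorem exists_frobLoc : ∃ φ : primeLocalGaloisGroup q,
    (primeLocalPlace q).IsFrobeniusAt (primeLocalToGlobal q φ) (q : ℕ) := by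
  obtain ⟨σ, hσ⟩ := Fermat.Agent.ES.FROB.FrobFacts12.exists_isFrobeniusAt_of (q : ℕ) q.2
    (primeLocalPlace q) (primeLocalPlace_liesOverPrime q)
  obtain ⟨φ, rfl⟩ := exists_primeLocalToGlobal_eq q hσ.mem_decompositionSubgroup
  exact ⟨φ, hσ⟩

/-- **The local Galois group at `q` has the tame structure** (levels pulled back from `G_ℚ`). -/
theorem isTameFrob_primeLocal {φ : primeLocalGaloisGroup q}
    (hφ : (primeLocalPlace q).IsFrobeniusAt (primeLocalToGlobal q φ) (q : ℕ)) :
    IsTameFrob (levelsOf (primeLocalToGlobal q)) (inertiaLoc q) φ (q : ℕ) :=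
  isTameFrob_of_global q.2 (primeLocalPlace_liesOverPrime q)
    (primeLocalToGlobal_mem_decompositionSubgroup q) (inertiaSubgroupIn_le_range q) hφ

end Primes

end Fermat.Agent.TW.LocQ.TameLocal61
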